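import Fermat.Agent.AbScheme.Defs

/-!
# Charts of a divisor and centres of valuations

Functions regular at all points of an affine open, denominators, charts for locally principal
divisors and the centre of a valuation ring on a proper variety.
-/

set_option autoImplicit false

noncomputable section

universe u

namespace FLTAgent.AbScheme.Growth

open CategoryTheory AlgebraicGeometry TopologicalSpace

variable {K : Type u} [Field K] {V : Var K}

theorem genericPoint_mem {W : V.X.Opens} {x : V.X} (hx : x ∈ W) : genericPoint V.X ∈ W :=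
  ((genericPoint_spec V.X).mem_open_set_iff W.isOpen).mpr (by simpa using ⟨x, hx⟩)

/-- The values in the function field of the sections on an open set. -/
def sectionRange (W : V.X.Opens) (hW : genericPoint V.X ∈ W) : Subring V.fn :=
  (V.X.presheaf.germ W (genericPoint V.X) hW).hom.range

/-- The values in the function field of the local ring at a point. -/
def stalkRange (x : V.X) : Subring V.fn :=
  (algebraMap (V.X.presheaf.stalk x) V.fn).range

theorem germ_mem_stalkRange {W : V.X.Opens} {x : V.X} (hx : x ∈ W) (hW : genericPoint V.X ∈ W)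
    (s : Γ(V.X, W)) : V.X.presheaf.germ W (genericPoint V.X) hW s ∈ stalkRange x := by
  refine ⟨V.X.presheaf.germ W x hx s, ?_⟩
  rw [RingHom.algebraMap_toAlgebra, ← ConcreteCategory.comp_apply,
    V.X.presheaf.germ_stalkSpecializes]

theorem sectionRange_le_stalkRange {W : V.X.Opens} {x : V.X} (hx : x ∈ W)
    (hW : genericPoint V.X ∈ W) : sectionRange W hW ≤ stalkRange x := by
  rintro _ ⟨s, rfl⟩
  exact germ_mem_stalkRange hx hW s

/-- The denominators of a function on an open set. -/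
def denominators (W : V.X.Opens) (hW : genericPoint V.X ∈ W) (a : V.fn) : Ideal Γ(V.X, W) where
  carrier := {q | (V.X.presheaf.germ W (genericPoint V.X) hW).hom q * a ∈ sectionRange W hW}
  add_mem' {p q} hp hq := by
    show (V.X.presheaf.germ W (genericPoint V.X) hW).hom (p + q) * a ∈ sectionRange W hW
    rw [map_add, add_mul]; exact add_mem hp hq
  zero_mem' := by
    show (V.X.presheaf.germ W (genericPoint V.X) hW).hom 0 * a ∈ sectionRange W hW
    rw [map_zero, zero_mul]; exact zero_mem _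
  smul_mem' c q hq := by
    show (V.X.presheaf.germ W (genericPoint V.X) hW).hom (c * q) * a ∈ sectionRange W hW
    rw [map_mul, mul_assoc]; exact mul_mem ⟨c, rfl⟩ hq

variable {W : V.X.Opens} (hWa : IsAffineOpen W) (hW : genericPoint V.X ∈ W)
include hWa

/-- A function regular at the point of a prime has a denominator outside the prime. -/
theorem exists_denominator (P : PrimeSpectrum Γ(V.X, W)) {a : V.fn}
    (ha : a ∈ stalkRange (hWa.fromSpec P)) :
    ∃ q, q ∉ P.asIdeal ∧
      (V.X.presheaf.germ W (genericPoint V.X) hW).hom q * a ∈ sectionRange W hW := by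
  have hP : hWa.fromSpec P ∈ W := hWa.range_fromSpec.le ⟨P, rfl⟩
  letI : Algebra Γ(V.X, W) (V.X.presheaf.stalk (hWa.fromSpec P)) :=
    (V.X.presheaf.germ W _ hP).hom.toAlgebra
  haveI : IsLocalization.AtPrime (V.X.presheaf.stalk (hWa.fromSpec P)) P.asIdeal :=
    hWa.isLocalization_stalk' P hP
  obtain ⟨z, rfl⟩ := ha
  obtain ⟨⟨p, q⟩, hpq⟩ := IsLocalization.surj P.asIdeal.primeCompl z
  refine ⟨q, q.2, p, ?_⟩
  have h := congrArg (algebraMap (V.X.presheaf.stalk (hWa.fromSpec P)) V.fn) hpq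
  rw [map_mul] at h
  have key : ∀ r : Γ(V.X, W), algebraMap (V.X.presheaf.stalk (hWa.fromSpec P)) V.fn
      (algebraMap Γ(V.X, W) (V.X.presheaf.stalk (hWa.fromSpec P)) r) =
        (V.X.presheaf.germ W (genericPoint V.X) hW).hom r := by
    intro r
    rw [RingHom.algebraMap_toAlgebra, RingHom.algebraMap_toAlgebra, ← ConcreteCategory.comp_apply,
      V.X.presheaf.germ_stalkSpecializes]
  rw [key, key] at h
  rw [mul_comm]
  exact h.symm

/-- Functions regular at all points of an affine open are sections. -/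
theorem mem_sectionRange {a : V.fn} (ha : ∀ x ∈ W, a ∈ stalkRange x) :
    a ∈ sectionRange W hW := by
  let J : Ideal Γ(V.X, W) := denominators W hW a
  by_cases hJ : J = ⊤
  · have h : (1 : Γ(V.X, W)) ∈ J := hJ ▸ Submodule.mem_top
    simpa [J, denominators] using h
  · obtain ⟨m, hm, hJm⟩ := J.exists_le_maximal hJ
    obtain ⟨q, hq, hqa⟩ := exists_denominator hWa hW ⟨m, hm.isPrime⟩
      (ha _ (hWa.range_fromSpec.le ⟨_, rfl⟩))
    exact (hq (hJm hqa)).elim

/-- A section regular away from a zero locus becomes a section after multiplication by a power. -/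
theorem exists_pow_mul_mem {f₀ : Γ(V.X, W)} {a : V.fn}
    (h : ∀ P : PrimeSpectrum Γ(V.X, W), f₀ ∉ P.asIdeal → a ∈ stalkRange (hWa.fromSpec P)) :
    ∃ e : ℕ, (V.X.presheaf.germ W (genericPoint V.X) hW).hom f₀ ^ e * a ∈ sectionRange W hW := by
  let J : Ideal Γ(V.X, W) := denominators W hW a
  have hf : f₀ ∈ J.radical := by
    rw [Ideal.radical_eq_sInf, Submodule.mem_sInf]
    rintro P ⟨hJP, hP⟩
    by_contra hfP
    obtain ⟨q, hq, hqa⟩ := exists_denominator hWa hW ⟨P, hP⟩ (h ⟨P, hP⟩ hfP)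
    exact hq (hJP hqa)
  obtain ⟨e, he⟩ := hf
  exact ⟨e, by simpa [J, denominators] using he⟩

/-- A section not in the prime is a unit at the point. -/
theorem isUnit_germ_of_notMem {f₀ : Γ(V.X, W)} (P : PrimeSpectrum Γ(V.X, W))
    (hP : hWa.fromSpec P ∈ W) (hf : f₀ ∉ P.asIdeal) :
    IsUnit (V.X.presheaf.germ W (hWa.fromSpec P) hP f₀) := by
  letI : Algebra Γ(V.X, W) (V.X.presheaf.stalk (hWa.fromSpec P)) :=
    (V.X.presheaf.germ W _ hP).hom.toAlgebra
  haveI : IsLocalization.AtPrime (V.X.presheaf.stalk (hWa.fromSpec P)) P.asIdeal :=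
    hWa.isLocalization_stalk' P hP
  exact IsLocalization.map_units (V.X.presheaf.stalk (hWa.fromSpec P))
    (⟨f₀, hf⟩ : P.asIdeal.primeCompl)

omit hWa

theorem appLE_comp_SpecMap {X : Scheme.{u}} {R S : CommRingCat.{u}} (m : Spec R ⟶ X) (ι : R ⟶ S)
    {W : X.Opens} (e : (⊤ : (Spec R).Opens) ≤ m ⁻¹ᵁ W)
    (e' : (⊤ : (Spec S).Opens) ≤ (Spec.map ι ≫ m) ⁻¹ᵁ W) :
    m.appLE W ⊤ e ≫ (Scheme.ΓSpecIso R).hom ≫ ι =
      (Spec.map ι ≫ m).appLE W ⊤ e' ≫ (Scheme.ΓSpecIso S).hom := by
  rw [← Scheme.ΓSpecIso_naturality ι, ← Category.assoc]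
  congr 1

theorem fromSpecStalk_appLE {X : Scheme.{u}} {x : X} {W : X.Opens} (hx : x ∈ W)
    (e : (⊤ : (Spec (X.presheaf.stalk x)).Opens) ≤ X.fromSpecStalk x ⁻¹ᵁ W) :
    (X.fromSpecStalk x).appLE W ⊤ e ≫ (Scheme.ΓSpecIso (X.presheaf.stalk x)).hom =
      X.presheaf.germ W x hx := by
  rw [Scheme.Hom.appLE, Scheme.fromSpecStalk_app hx]
  simp only [Category.assoc, ← Functor.map_comp_assoc, ← op_comp, homOfLE_comp]
  erw [CategoryTheory.Functor.map_id, Category.id_comp, Iso.inv_hom_id, Category.comp_id]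

theorem appLE_eq_germ_of_eq {X : Scheme.{u}} {x : X} {W : X.Opens} (hx : x ∈ W)
    (m : Spec (X.presheaf.stalk x) ⟶ X) (hm : m = X.fromSpecStalk x)
    (e : (⊤ : (Spec (X.presheaf.stalk x)).Opens) ≤ m ⁻¹ᵁ W) :
    m.appLE W ⊤ e ≫ (Scheme.ΓSpecIso (X.presheaf.stalk x)).hom = X.presheaf.germ W x hx := by
  subst hm
  exact fromSpecStalk_appLE hx e

/-- A valuation ring of the function field containing the constants has a centre. -/
theorem exists_centre (O : ValuationSubring V.fn) (hO : ∀ c, algebraMap K V.fn c ∈ O) :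
    ∃ y : V.X, ∀ (W : V.X.Opens) (hy : y ∈ W), ∀ a ∈ sectionRange W (genericPoint_mem hy), a ∈ O := by
  have hex : ValuativeCriterion.Existence V.str := by
    have h : UniversallyClosed V.str := inferInstance
    rw [UniversallyClosed.eq_valuativeCriterion] at h
    exact h.1
  let ι : CommRingCat.of O ⟶ CommRingCat.of V.fn := CommRingCat.ofHom (algebraMap O V.fn)
  let c : CommRingCat.of K ⟶ CommRingCat.of O :=
    CommRingCat.ofHom ((algebraMap K V.fn).codRestrict O.toSubring hO)
  have hcomm : CommSq (V.X.fromSpecStalk (genericPoint V.X)) (Spec.map ι) V.str (Spec.map c) := by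
    constructor
    apply ext_of_isAffine
    rw [Scheme.Hom.comp_appTop, Scheme.Hom.comp_appTop, Scheme.fromSpecStalk_appTop,
      ← cancel_mono (Scheme.ΓSpecIso (CommRingCat.of V.fn)).hom,
      ← cancel_epi (Scheme.ΓSpecIso (CommRingCat.of K)).inv]
    simp only [Category.assoc, Scheme.ΓSpecIso_naturality, Scheme.ΓSpecIso_naturality_assoc,
      Iso.inv_hom_id_assoc]
    ext k
    show _ = algebraMap O V.fn (c k)
    simp [c, Var.constFn, Var.constHom, Scheme.Hom.appLE, RingHom.algebraMap_toAlgebra]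
  obtain ⟨⟨l', hl', -⟩⟩ := (hex ⟨O, V.fn, V.X.fromSpecStalk (genericPoint V.X), Spec.map c,
    hcomm⟩).exists_lift
  let l : Spec (CommRingCat.of O) ⟶ V.X := l'
  have hl : Spec.map ι ≫ l = V.X.fromSpecStalk (genericPoint V.X) := hl'
  refine ⟨l (IsLocalRing.closedPoint O), fun W hy => ?_⟩
  rintro _ ⟨s, rfl⟩
  have e : (⊤ : (Spec (CommRingCat.of O)).Opens) ≤ l ⁻¹ᵁ W :=
    (Scheme.preimage_eq_top_of_closedPoint_mem l hy).ge
  have h : (l.appLE W ⊤ e ≫ (Scheme.ΓSpecIso (CommRingCat.of O)).hom) ≫ ι =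
      V.X.presheaf.germ W (genericPoint V.X) (genericPoint_mem hy) := by
    have e' : (⊤ : (Spec (CommRingCat.of V.fn)).Opens) ≤ (Spec.map ι ≫ l) ⁻¹ᵁ W :=
      fun x _ => e (show (Spec.map ι) x ∈ (⊤ : (Spec (CommRingCat.of O)).Opens) from trivial)
    rw [Category.assoc, appLE_comp_SpecMap l ι e e']
    exact appLE_eq_germ_of_eq (genericPoint_mem hy) _ hl e'
  rw [← h]
  exact Subtype.coe_prop _

/-- Charts of a divisor. -/
theorem exists_charts (D : CDiv V.X) :
    ∃ (t : Finset V.X) (W : V.X → V.X.Opens) (f : V.X → V.fnˣ),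
      (∀ x, IsAffineOpen (W x) ∧ x ∈ W x ∧ ∀ y ∈ W x, D.1 y = QuotientGroup.mk (f x)) ∧
      ∀ y : V.X, ∃ x ∈ t, y ∈ W x := by
  choose U hU f hf using D.2
  have haff : ∀ x : V.X, ∃ A : V.X.Opens, IsAffineOpen A ∧ x ∈ A ∧ A ≤ U x := by
    intro x
    obtain ⟨_, ⟨A, hA, rfl⟩, hxA, hAU⟩ :=
      V.X.isBasis_affineOpens.exists_subset_of_mem_open (hU x) (U x).isOpen
    exact ⟨A, hA, hxA, hAU⟩
  choose W hWa hxW hWU using haff
  haveI : CompactSpace V.X := QuasiCompact.compactSpace_of_compactSpace V.str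
  obtain ⟨t, ht⟩ := isCompact_univ.elim_finite_subcover (fun x => (W x : Set V.X))
    (fun x => (W x).isOpen) fun y _ => Set.mem_iUnion.2 ⟨y, hxW y⟩
  refine ⟨t, W, f, fun x => ⟨hWa x, hxW x, fun y hy => hf x y (hWU x hy)⟩, fun y => ?_⟩
  simpa using ht (Set.mem_univ y)

end FLTAgent.AbScheme.Growth
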