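import Fermat.Agent.AbScheme.Growth.Poly

/-!
# Coordinates of a standard smooth domain

A standard smooth domain of relative dimension `g` over a field is etale over a polynomial ring
in `g` variables, so its field of fractions is finite separable over a rational function field.
-/

set_option autoImplicit false

noncomputable section

universe u

namespace FLTAgent.AbScheme.Growth

open MvPolynomial Module

variable {K : Type u} [Field K] (S : Type u) [CommRing S] [IsDomain S] {F : Type u} [Field F]
  [Algebra K S] [Algebra S F] [Algebra K F] [IsScalarTower K S F] [IsFractionRing S F] (g : ℕ)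
  [Algebra.IsStandardSmoothOfRelativeDimension g K S]

omit [Algebra K F] [IsScalarTower K S F] in
/-- An etale algebra which is a domain contains the base. -/
theorem injective_of_etale {P : Type u} [CommRing P] [IsDomain P] [Algebra P S] [Algebra.Etale P S] :
    Function.Injective (algebraMap P S) := by
  rw [injective_iff_map_eq_zero]
  intro p hp
  by_contra hp0
  have h := Module.Flat.isSMulRegular_of_nonZeroDivisors (M := S)
    (mem_nonZeroDivisors_of_ne_zero hp0)
  exact one_ne_zero (h (a₁ := (1 : S)) (a₂ := 0)
    (by simp only [Algebra.smul_def, hp, zero_mul]))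

include S in
/-- Algebraically independent coordinates. -/
theorem exists_injective_coords : ∃ φ : MvPolynomial (Fin g) K →ₐ[K] F, Function.Injective φ := by
  obtain ⟨φ, hφ⟩ :=
    Algebra.IsStandardSmoothOfRelativeDimension.exists_etale_mvPolynomial g K S
  letI : Algebra (MvPolynomial (Fin g) K) S := φ.toRingHom.toAlgebra
  haveI : Algebra.Etale (MvPolynomial (Fin g) K) S := hφ
  exact ⟨(IsScalarTower.toAlgHom K S F).comp φ,
    (IsFractionRing.injective S F).comp (injective_of_etale S)⟩

include S in
/-- The upper bound in a smooth chart. -/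
theorem exists_finrank_le_of_smooth {ι : Type*} [Finite ι] (f : ι → F) (hf : ∀ i, f i ≠ 0)
    (L : ℕ → Submodule K F)
    (hL : ∀ O : ValuationSubring F, (∀ c, algebraMap K F c ∈ O) →
      ∃ i, ∀ m, ∀ a ∈ L m, a * f i ^ m ∈ O) :
    ∃ C, ∀ m, FiniteDimensional K (L m) ∧ finrank K (L m) ≤ C * (m + 1) ^ g := by
  obtain ⟨φ, hφ⟩ :=
    Algebra.IsStandardSmoothOfRelativeDimension.exists_etale_mvPolynomial g K S
  letI : Algebra (MvPolynomial (Fin g) K) S := φ.toRingHom.toAlgebra
  haveI : IsScalarTower K (MvPolynomial (Fin g) K) S :=
    IsScalarTower.of_algebraMap_eq fun c => (φ.commutes c).symm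
  haveI : Algebra.Etale (MvPolynomial (Fin g) K) S := hφ
  letI : Algebra (MvPolynomial (Fin g) K) F :=
    ((algebraMap S F).comp (algebraMap (MvPolynomial (Fin g) K) S)).toAlgebra
  haveI : IsScalarTower (MvPolynomial (Fin g) K) S F := IsScalarTower.of_algebraMap_eq fun _ => rfl
  haveI : IsScalarTower K (MvPolynomial (Fin g) K) F := IsScalarTower.of_algebraMap_eq fun c => by
    rw [IsScalarTower.algebraMap_apply (MvPolynomial (Fin g) K) S F,
      ← IsScalarTower.algebraMap_apply K (MvPolynomial (Fin g) K) S,
      ← IsScalarTower.algebraMap_apply K S F]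
  haveI : FaithfulSMul (MvPolynomial (Fin g) K) F := (faithfulSMul_iff_algebraMap_injective _ _).2
    ((IsFractionRing.injective S F).comp (injective_of_etale S))
  letI := FractionRing.liftAlgebra (MvPolynomial (Fin g) K) F
  haveI : IsScalarTower K (FractionRing (MvPolynomial (Fin g) K)) F :=
    IsScalarTower.of_algebraMap_eq fun c => by
      rw [IsScalarTower.algebraMap_apply K (MvPolynomial (Fin g) K)
          (FractionRing (MvPolynomial (Fin g) K)),
        ← IsScalarTower.algebraMap_apply (MvPolynomial (Fin g) K) _ F,
        ← IsScalarTower.algebraMap_apply]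
  haveI : Algebra.FormallyUnramified S F :=
    Algebra.FormallyUnramified.of_isLocalization (nonZeroDivisors S)
  haveI : Algebra.FormallyUnramified (MvPolynomial (Fin g) K) F :=
    Algebra.FormallyUnramified.comp _ S _
  haveI : Algebra.FormallyUnramified (FractionRing (MvPolynomial (Fin g) K)) F :=
    Algebra.FormallyUnramified.of_restrictScalars (MvPolynomial (Fin g) K) _ _
  haveI : Algebra.EssFiniteType S F :=
    Algebra.EssFiniteType.of_isLocalization F (nonZeroDivisors S)
  haveI : Algebra.EssFiniteType (MvPolynomial (Fin g) K) F :=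
    Algebra.EssFiniteType.comp _ S _
  haveI : Algebra.EssFiniteType (FractionRing (MvPolynomial (Fin g) K)) F :=
    Algebra.EssFiniteType.of_comp (MvPolynomial (Fin g) K) _ _
  haveI : FiniteDimensional (FractionRing (MvPolynomial (Fin g) K)) F :=
    Algebra.FormallyUnramified.finite_of_free _ _
  haveI : Algebra.IsSeparable (FractionRing (MvPolynomial (Fin g) K)) F :=
    Algebra.FormallyUnramified.isSeparable _ _
  exact exists_finrank_le (E := FractionRing (MvPolynomial (Fin g) K)) f hf L hL

end FLTAgent.AbScheme.Growth
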