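import Mathlib

/-!
# Dimensions of spaces of functions with bounded poles

For a field finite separable over a rational function field in `g` variables, spaces of elements
whose poles are bounded by the `m`-th powers of finitely many elements have dimension
`O((m + 1) ^ g)`: the traces against an integral basis are polynomials of bounded degree in each
variable.
-/

set_option autoImplicit false

noncomputable section

universe u

namespace FLTAgent.AbScheme.Growth

open MvPolynomial Module

/-- Membership in all valuation subrings containing the base means integrality. -/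
theorem isIntegral_of_forall_mem {A F : Type*} [CommRing A] [Field F] [Algebra A F] {z : F}
    (h : ∀ O : ValuationSubring F, (∀ a, algebraMap A F a ∈ O) → z ∈ O) : IsIntegral A z := by
  have hz : z ∈ (integralClosure (Subring.closure (Set.range (algebraMap A F))) F).toSubring := by
    rw [← iInf_valuationSubring_superset]
    refine Subring.mem_iInf.2 fun V => h V.1 fun a => V.2 ⟨a, rfl⟩
  have e : Subring.closure (Set.range (algebraMap A F)) = (algebraMap A F).range := by
    rw [← RingHom.coe_range, Subring.closure_eq]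
  rw [e] at hz
  obtain ⟨p, hp, hpz⟩ := hz
  obtain ⟨q, hq, -, hqm⟩ := Polynomial.lifts_and_natDegree_eq_and_monic
    (f := (algebraMap A F).rangeRestrict) (p := p)
    (Polynomial.map_surjective _ (algebraMap A F).rangeRestrict_surjective p) hp
  refine ⟨q, hqm, ?_⟩
  rw [← hq, Polynomial.eval₂_map] at hpz
  exact hpz

/-- Integral elements lie in every valuation subring containing the base. -/
theorem mem_of_isIntegral {A F : Type*} [CommRing A] [Field F] [Algebra A F] {z : F}
    (hz : IsIntegral A z) (O : ValuationSubring F) (hO : ∀ a, algebraMap A F a ∈ O) : z ∈ O := by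
  letI : Algebra A O := ((algebraMap A F).codRestrict O.toSubring hO).toAlgebra
  haveI : IsScalarTower A O F := IsScalarTower.of_algebraMap_eq fun _ => rfl
  obtain ⟨y, rfl⟩ := IsIntegrallyClosed.isIntegral_iff.1 (hz.tower_top (A := O))
  exact y.2

/-- One element of the base clears the poles of all spaces. -/
theorem exists_multiple {K A E F : Type*} [Field K] [CommRing A] [IsDomain A] [Field E] [Field F]
    [Algebra K F] [Algebra A E] [IsFractionRing A E] [Algebra E F] [Algebra A F]
    [IsScalarTower A E F] [FiniteDimensional E F] {ι : Type*} [Finite ι] (f : ι → F)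
    (hf : ∀ i, f i ≠ 0) (L : ℕ → Submodule K F)
    (hL : ∀ O : ValuationSubring F, (∀ a, algebraMap A F a ∈ O) →
      ∃ i, ∀ m, ∀ a ∈ L m, a * f i ^ m ∈ O) :
    ∃ δ : A, δ ≠ 0 ∧ ∀ m, ∀ a ∈ L m, IsIntegral A (algebraMap A F δ ^ m * a) := by
  classical
  haveI := Fintype.ofFinite ι
  obtain ⟨δ, hδ, hint⟩ := exists_integral_multiples (A := A) (K := E)
    (Finset.univ.image fun i => (f i)⁻¹)
  refine ⟨δ, hδ, fun m a ha => isIntegral_of_forall_mem fun O hO => ?_⟩
  obtain ⟨i, hi⟩ := hL O hO
  have h1 : δ • (f i)⁻¹ ∈ O := mem_of_isIntegral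
    (hint _ (Finset.mem_image_of_mem _ (Finset.mem_univ i))) O hO
  have h2 : algebraMap A F δ ^ m * a = (δ • (f i)⁻¹) ^ m * (a * f i ^ m) := by
    rw [Algebra.smul_def, mul_pow, inv_pow, mul_assoc, mul_comm a, inv_mul_cancel_left₀
      (pow_ne_zero _ (hf i))]
  rw [h2]
  exact mul_mem (pow_mem h1 m) (hi m a ha)

variable {K : Type u} [Field K] {g : ℕ} {E F : Type*} [Field E] [Field F]
  [Algebra (MvPolynomial (Fin g) K) E]

local notation "Pol" => MvPolynomial (Fin g) K

theorem finrank_restrictDegree (N : ℕ) :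
    finrank K (restrictDegree (Fin g) K N) = (N + 1) ^ g := by
  rw [restrictDegree]
  have e : {n : Fin g →₀ ℕ | ∀ i, n i ≤ N} ≃ (Fin g → Fin (N + 1)) :=
    { toFun := fun n i => ⟨n.1 i, Nat.lt_succ_of_le (n.2 i)⟩
      invFun := fun n => ⟨Finsupp.equivFunOnFinite.symm fun i => (n i).1,
        fun i => Nat.le_of_lt_succ (n i).2⟩
      left_inv := fun n => Subtype.ext (Finsupp.ext fun i => rfl)
      right_inv := fun n => funext fun i => Fin.ext rfl }
  haveI : Fintype {n : Fin g →₀ ℕ | ∀ i, n i ≤ N} := Fintype.ofEquiv _ e.symm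
  rw [finrank_eq_card_basis (basisRestrictSupport K _), Fintype.card_congr e]
  simp

variable (K g E) in
/-- The valuation subring of degree in the `i`-th variable. -/
def degSub [IsFractionRing (MvPolynomial (Fin g) K) E] (i : Fin g) : ValuationSubring E where
  carrier := {z | ∃ u v : Pol, v ≠ 0 ∧ z = algebraMap Pol E u / algebraMap Pol E v ∧
    degreeOf i u ≤ degreeOf i v}
  one_mem' := ⟨1, 1, one_ne_zero, by simp, le_rfl⟩
  zero_mem' := ⟨0, 1, one_ne_zero, by simp, by simp [degreeOf_zero]⟩
  mul_mem' {x y} hx hy := by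
    obtain ⟨a, b, hb, rfl, hab⟩ := hx
    obtain ⟨c, d, hd, rfl, hcd⟩ := hy
    refine ⟨a * c, b * d, mul_ne_zero hb hd, by rw [map_mul, map_mul, div_mul_div_comm], ?_⟩
    rw [degreeOf_mul_eq hb hd]
    exact (degreeOf_mul_le i a c).trans (add_le_add hab hcd)
  add_mem' {x y} hx hy := by
    obtain ⟨a, b, hb, rfl, hab⟩ := hx
    obtain ⟨c, d, hd, rfl, hcd⟩ := hy
    refine ⟨a * d + b * c, b * d, mul_ne_zero hb hd, ?_, ?_⟩
    · rw [map_add, map_mul, map_mul, map_mul, div_add_div]
      · exact IsFractionRing.to_map_ne_zero_of_mem_nonZeroDivisors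
          (mem_nonZeroDivisors_of_ne_zero hb)
      · exact IsFractionRing.to_map_ne_zero_of_mem_nonZeroDivisors
          (mem_nonZeroDivisors_of_ne_zero hd)
    · rw [degreeOf_mul_eq hb hd]
      exact (degreeOf_add_le i _ _).trans (max_le
        ((degreeOf_mul_le i a d).trans (add_le_add hab le_rfl))
        ((degreeOf_mul_le i b c).trans (add_le_add le_rfl hcd)))
  neg_mem' {x} hx := by
    obtain ⟨a, b, hb, rfl, hab⟩ := hx
    refine ⟨-a, b, hb, by rw [map_neg, neg_div], ?_⟩
    rwa [degreeOf_eq_sup, support_neg, ← degreeOf_eq_sup]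
  mem_or_inv_mem' z := by
    obtain ⟨a, b, hb, rfl⟩ := IsFractionRing.div_surjective (A := Pol) z
    have hb0 : b ≠ 0 := nonZeroDivisors.ne_zero hb
    rcases le_total (degreeOf i a) (degreeOf i b) with h | h
    · exact Or.inl ⟨a, b, hb0, rfl, h⟩
    · rcases eq_or_ne a 0 with rfl | ha
      · exact Or.inl ⟨0, b, hb0, rfl, by simp [degreeOf_zero]⟩
      · exact Or.inr ⟨b, a, ha, by rw [inv_div], h⟩

variable [IsFractionRing (MvPolynomial (Fin g) K) E]

theorem mem_degSub_iff {i : Fin g} {z : E} : z ∈ degSub K g E i ↔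
    ∃ u v : Pol, v ≠ 0 ∧ z = algebraMap Pol E u / algebraMap Pol E v ∧
      degreeOf i u ≤ degreeOf i v := Iff.rfl

theorem degree_le_of_mem {i : Fin g} {u v : Pol} (hv : v ≠ 0)
    (h : algebraMap Pol E u / algebraMap Pol E v ∈ degSub K g E i) :
    degreeOf i u ≤ degreeOf i v := by
  obtain ⟨a, b, hb, he, hab⟩ := h
  rcases eq_or_ne u 0 with rfl | hu
  · simp [degreeOf_zero]
  have hinj := IsFractionRing.injective Pol E
  have h1 : u * b = a * v := hinj (by
    rw [map_mul, map_mul]
    exact (div_eq_div_iff ((map_ne_zero_iff _ hinj).2 hv) ((map_ne_zero_iff _ hinj).2 hb)).1 he)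
  have h2 := congrArg (degreeOf i) h1
  rw [degreeOf_mul_eq hu hb] at h2
  have h3 := degreeOf_mul_le i a v
  omega

variable [Algebra K E] [IsScalarTower K (MvPolynomial (Fin g) K) E]
  [Algebra K F] [Algebra (MvPolynomial (Fin g) K) F] [Algebra E F]
  [IsScalarTower (MvPolynomial (Fin g) K) E F] [IsScalarTower K E F]

/-- Spaces with poles bounded by powers of finitely many elements grow at most like
`(m + 1) ^ g`. -/
theorem exists_finrank_le [FiniteDimensional E F] [Algebra.IsSeparable E F] {ι : Type*}
    [Finite ι] (f : ι → F) (hf : ∀ i, f i ≠ 0) (L : ℕ → Submodule K F)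
    (hL : ∀ O : ValuationSubring F, (∀ c, algebraMap K F c ∈ O) →
      ∃ i, ∀ m, ∀ a ∈ L m, a * f i ^ m ∈ O) :
    ∃ C, ∀ m, FiniteDimensional K (L m) ∧ finrank K (L m) ≤ C * (m + 1) ^ g := by
  classical
  have hinj := IsFractionRing.injective Pol E
  -- the multiple over the polynomials
  obtain ⟨δ, hδ, hδint⟩ := exists_multiple (A := Pol) (E := E) f hf L fun O hO => hL O fun c => by
    rw [IsScalarTower.algebraMap_apply K E F, IsScalarTower.algebraMap_apply K Pol E,
      ← IsScalarTower.algebraMap_apply Pol E F]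
    exact hO _
  -- an integral basis
  let b₀ := Module.finBasis E F
  obtain ⟨y, hy, hyb⟩ := exists_integral_multiples (A := Pol) (K := E) (Finset.univ.image b₀)
  let b : Basis (Fin (finrank E F)) E F :=
    b₀.unitsSMul fun _ => Units.mk0 _ ((map_ne_zero_iff _ hinj).2 hy)
  have hb : ∀ j, IsIntegral Pol (b j) := by
    intro j
    have hh : b j = y • b₀ j := by
      rw [Basis.unitsSMul_apply, Units.smul_def, Units.val_mk0, IsScalarTower.algebraMap_smul]
    rw [hh]
    exact hyb _ (Finset.mem_image_of_mem _ (Finset.mem_univ j))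
  -- the bound on the degree in each variable
  have hdeg : ∀ i : Fin g, ∃ C : ℕ, ∀ m, ∀ a ∈ L m, ∀ j, ∀ q : Pol,
      algebraMap Pol E q =
        algebraMap Pol E δ ^ m * Algebra.trace E F (a * b j) →
      degreeOf i q ≤ C * (m + 1) := by
    intro i
    letI : Algebra (degSub K g E i) F :=
      ((algebraMap E F).comp (degSub K g E i).subtype).toAlgebra
    haveI : IsScalarTower (degSub K g E i) E F := IsScalarTower.of_algebraMap_eq fun _ => rfl
    obtain ⟨η, hη, hηint⟩ := exists_multiple (A := degSub K g E i) (E := E) f hf L fun O hO =>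
      hL O fun c => by
        have hc : algebraMap K E c ∈ degSub K g E i := ⟨C c, 1, one_ne_zero, by
          rw [map_one, div_one, IsScalarTower.algebraMap_apply K Pol E, MvPolynomial.algebraMap_eq],
          by rw [degreeOf_C]; exact Nat.zero_le _⟩
        rw [IsScalarTower.algebraMap_apply K E F]
        exact hO ⟨_, hc⟩
    obtain ⟨e, he, heb⟩ := exists_integral_multiples (A := degSub K g E i) (K := E)
      (Finset.univ.image b)
    obtain ⟨u₁, v₁, hv₁, hηe, -⟩ := mem_degSub_iff.1 η.2
    obtain ⟨u₂, v₂, hv₂, hee, -⟩ := mem_degSub_iff.1 e.2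
    refine ⟨degreeOf i v₁ + degreeOf i δ + degreeOf i v₂, fun m a ha j q hq => ?_⟩
    have h1 : IsIntegral (degSub K g E i) ((η.1 ^ m * e.1) • (a * b j)) := by
      have h2 := (hηint m a ha).mul (heb _ (Finset.mem_image_of_mem b (Finset.mem_univ j)))
      convert! h2 using 1
      rw [Algebra.smul_def, Algebra.smul_def, map_mul, map_pow]
      show _ = algebraMap E F η.1 ^ m * a * (algebraMap E F e.1 * b j)
      ring
    have h3 := Algebra.isIntegral_trace (L := E) h1
    rw [map_smul] at h3
    obtain ⟨z, hz⟩ := IsIntegrallyClosed.isIntegral_iff.1 h3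
    have hu₁ : u₁ ≠ 0 := by
      rintro rfl
      rw [map_zero, zero_div] at hηe
      exact hη (Subtype.ext hηe)
    have hu₂ : u₂ ≠ 0 := by
      rintro rfl
      rw [map_zero, zero_div] at hee
      exact he (Subtype.ext hee)
    rcases eq_or_ne q 0 with rfl | hq0
    · simp [degreeOf_zero]
    have h4 : algebraMap Pol E (u₁ ^ m * u₂ * q) / algebraMap Pol E (v₁ ^ m * v₂ * δ ^ m) =
        z.1 := by
      refine Eq.trans ?_ hz.symm
      have hne : ∀ {p : Pol}, p ≠ 0 → algebraMap Pol E p ≠ 0 :=
        fun hp => (map_ne_zero_iff _ hinj).2 hp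
      rw [map_mul, map_mul, map_mul, map_mul, map_pow, map_pow, map_pow, hq, smul_eq_mul, hηe,
        hee, div_pow]
      have := hne hv₁
      have := hne hv₂
      have := hne hδ
      field_simp
    have h5 := degree_le_of_mem (i := i) (mul_ne_zero (mul_ne_zero (pow_ne_zero _ hv₁) hv₂)
      (pow_ne_zero _ hδ)) (h4 ▸ z.2)
    rw [degreeOf_mul_eq (mul_ne_zero (pow_ne_zero _ hu₁) hu₂) hq0,
      degreeOf_mul_eq (mul_ne_zero (pow_ne_zero _ hv₁) hv₂) (pow_ne_zero _ hδ),
      degreeOf_mul_eq (pow_ne_zero _ hv₁) hv₂, degreeOf_pow_eq i v₁ m hv₁,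
      degreeOf_pow_eq i δ m hδ] at h5
    nlinarith
  choose C hC using hdeg
  obtain ⟨N, hN⟩ : ∃ N, ∀ i, C i ≤ N :=
    ⟨Finset.univ.sup C, fun i => Finset.le_sup (Finset.mem_univ i)⟩
  refine ⟨finrank E F * (N + 1) ^ g, fun m => ?_⟩
  let W : Submodule K E :=
    (restrictDegree (Fin g) K (N * (m + 1))).map (IsScalarTower.toAlgHom K Pol E).toLinearMap
  have hW : finrank K W ≤ (N * (m + 1) + 1) ^ g :=
    (Submodule.finrank_map_le _ _).trans (finrank_restrictDegree _).le
  have hmem : ∀ a ∈ L m, ∀ j, algebraMap Pol E δ ^ m * Algebra.trace E F (a * b j) ∈ W := by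
    intro a ha j
    have h1 : IsIntegral Pol ((algebraMap Pol E δ ^ m) • (a * b j)) := by
      have h2 := (hδint m a ha).mul (hb j)
      convert! h2 using 1
      rw [Algebra.smul_def, map_pow, ← IsScalarTower.algebraMap_apply, mul_assoc]
    have h3 := Algebra.isIntegral_trace (L := E) h1
    rw [map_smul, smul_eq_mul] at h3
    obtain ⟨q, hq⟩ := IsIntegrallyClosed.isIntegral_iff.1 h3
    refine ⟨q, ?_, hq⟩
    rw [SetLike.mem_coe, mem_restrictDegree]
    intro s hs i
    exact (degreeOf_le_iff.1 (hC i m a ha j q hq) s hs).trans (Nat.mul_le_mul_right _ (hN i))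
  let T : L m →ₗ[K] (Fin (finrank E F) → W) :=
    LinearMap.pi fun j => LinearMap.codRestrict _
      (((LinearMap.mulLeft E (algebraMap Pol E δ ^ m)).comp
        ((Algebra.trace E F).comp (LinearMap.mulRight E (b j)))).restrictScalars K |>.comp
          (L m).subtype) fun a => hmem a.1 a.2 j
  have hT : Function.Injective T := by
    rw [injective_iff_map_eq_zero]
    intro a ha
    have h1 : ∀ j, Algebra.traceForm E F a.1 (b j) = 0 := fun j => by
      have h2 : algebraMap Pol E δ ^ m * Algebra.trace E F (a.1 * b j) = 0 :=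
        congrArg Subtype.val (congrFun ha j)
      exact (mul_eq_zero.1 h2).resolve_left (pow_ne_zero _ ((map_ne_zero_iff _ hinj).2 hδ))
    have h2 : Algebra.traceForm E F a.1 = 0 := b.ext fun j => by simpa using h1 j
    exact Subtype.ext ((traceForm_nondegenerate E F).1 _ fun x => by rw [h2]; rfl)
  refine ⟨FiniteDimensional.of_injective T hT, ?_⟩
  have h := LinearMap.finrank_le_finrank_of_injective hT
  rw [Module.finrank_pi_fintype, Finset.sum_const, Finset.card_univ, Fintype.card_fin,
    smul_eq_mul] at h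
  calc finrank K (L m) ≤ finrank E F * finrank K W := h
    _ ≤ finrank E F * ((N + 1) * (m + 1)) ^ g :=
      Nat.mul_le_mul_left _ (hW.trans (Nat.pow_le_pow_left (by nlinarith) g))
    _ = _ := by rw [mul_pow, mul_assoc]

omit [Algebra E F] [IsScalarTower (MvPolynomial (Fin g) K) E F] [IsScalarTower K E F] in
/-- Monomials in algebraically independent fractions give at least `(m + 1) ^ g` dimensions. -/
theorem exists_le_finrank (hinjF : Function.Injective (algebraMap (MvPolynomial (Fin g) K) F))
    [IsScalarTower K (MvPolynomial (Fin g) K) F] (L : ℕ → Submodule K F)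
    (hfin : ∀ m, FiniteDimensional K (L m))
    (hone : (1 : F) ∈ L 0)
    (hmul : ∀ a b (x y : F), x ∈ L a → y ∈ L b → x * y ∈ L (a + b))
    {s : F} (hs0 : s ≠ 0) {e : ℕ} (hs : s ∈ L e)
    (hx : ∀ i : Fin g, s * algebraMap (MvPolynomial (Fin g) K) F (MvPolynomial.X i) ∈ L e) :
    ∀ m, (m + 1) ^ g ≤ finrank K (L (e * g * m)) := by
  intro m
  have hpow : ∀ (a n : ℕ) (x : F), x ∈ L a → x ^ n ∈ L (a * n) := by
    intro a n x hxa
    induction n with
    | zero => simpa using hone
    | succ n ih => rw [pow_succ, mul_add, mul_one]; exact hmul _ _ _ _ ih hxa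
  have hprod : ∀ n : Fin g →₀ ℕ, (∀ i, n i ≤ m) →
      s ^ (g * m) * algebraMap Pol F (monomial n 1) ∈ L (e * g * m) := by
    intro n hn
    have h1 : ∀ t : Finset (Fin g),
        ∏ i ∈ t, s ^ m * algebraMap Pol F (X i) ^ n i ∈ L (t.card * (e * m)) := by
      intro t
      induction t using Finset.induction with
      | empty => simpa using hone
      | insert i t hit ih =>
        rw [Finset.prod_insert hit, Finset.card_insert_of_notMem hit, add_mul, one_mul, add_comm]
        refine hmul _ _ _ _ ?_ ih
        obtain ⟨r, hr⟩ : ∃ r, m = n i + r := Nat.exists_eq_add_of_le (hn i)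
        rw [hr, pow_add, mul_right_comm, ← mul_pow, mul_add]
        exact hmul _ _ _ _ (hpow _ _ _ (hx i)) (hpow _ _ _ hs)
    have h2 := h1 Finset.univ
    rw [Finset.prod_mul_distrib, Finset.prod_const, Finset.card_univ, Fintype.card_fin,
      ← pow_mul, mul_comm m] at h2
    rw [monomial_eq, Finsupp.prod_fintype _ _ (fun _ => pow_zero _), map_mul,
      map_one, map_one, one_mul, map_prod]
    simp only [map_pow]
    convert! h2 using 2
    ring
  have hmem : ∀ p ∈ restrictDegree (Fin g) K m,
      s ^ (g * m) * algebraMap Pol F p ∈ L (e * g * m) := by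
    intro p hp
    rw [mem_restrictDegree] at hp
    rw [p.as_sum, map_sum, Finset.mul_sum]
    refine Submodule.sum_mem _ fun n hn => ?_
    have h3 : monomial n (p.coeff n) = p.coeff n • monomial n (1 : K) := by
      rw [smul_monomial, smul_eq_mul, mul_one]
    rw [h3, algebra_compatible_smul Pol, smul_eq_mul, map_mul, ← IsScalarTower.algebraMap_apply,
      mul_left_comm, ← Algebra.smul_def]
    exact Submodule.smul_mem _ _ (hprod n (hp n hn))
  let S : restrictDegree (Fin g) K m →ₗ[K] L (e * g * m) :=
    LinearMap.codRestrict _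
      ((LinearMap.mulLeft K (s ^ (g * m))).comp
        ((IsScalarTower.toAlgHom K Pol F).toLinearMap.comp
          (restrictDegree (Fin g) K m).subtype))
      fun p => hmem p.1 p.2
  have hS : Function.Injective S := fun p q h =>
    Subtype.ext (hinjF (mul_left_cancel₀ (pow_ne_zero _ hs0) (congrArg Subtype.val h)))
  haveI := hfin (e * g * m)
  rw [← finrank_restrictDegree (K := K) (g := g) m]
  exact LinearMap.finrank_le_finrank_of_injective hS

end FLTAgent.AbScheme.Growth
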